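import Mathlib
import Fermat.Agent.TFin.LiftSetup
import Fermat.Agent.H12.LO.Main
import Fermat.Agent.H13.LL.ModeFalse
import Fermat.Agent.H06.AuxR

/-!
# Modularity lifting with an auxiliary prime: the base data
-/

set_option autoImplicit false
set_option linter.unusedSectionVars false
set_option linter.style.haveILetI false

noncomputable section

namespace Fermat.Agent.H14U

open Fermat.Agent.TC Fermat.Agent.TW Fermat.Agent.CC Fermat.Agent.H25.GE Fermat.Agent.H25.TR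
open Fermat.Agent.Ell Fermat.Agent.H25 Fermat.Agent.H25.PR Fermat.Agent.H25.PT
open Fermat.Agent.H22 Fermat.Agent.H12.LL Fermat.Agent.H25.SB Fermat.Agent.H25.GD
open Fermat.Agent.TFin
open Fermat.Agent.H12.LO (UnOk)
open Fermat.Agent.H04 (DN M2)
open IsLocalRing CongruenceSubgroup Matrix

/-- the auxiliary primes -/
structure AuxOk (W : WeierstrassCurve ℤ) (p : ℕ) [Fact p.Prime] (q : ℕ) : Prop where
  un : UnOk W p q
  neg : p ∣ q + 1

section

variable {W : WeierstrassCurve ℤ} {p : ℕ} [hp : Fact p.Prime]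
  (hΔ : W.Δ ≠ 0) (hirr : W.ModRepIsIrreducible p) (hp2 : p ≠ 2)
  {O : Type} [CommRing O] [IsDomain O] [IsDiscreteValuationRing O]
  [IsAdicComplete (maximalIdeal O) O] [Finite (ResidueField O)] [CharZero O] [Algebra ℤ_[p] O]
  [IsLocalHom (algebraMap ℤ_[p] O)]

/-- the (empty) local condition at the auxiliary primes -/
theorem laux_RDW {S : Finset Nat.Primes} (hS : ∀ q : Nat.Primes, q ∉ S → UnrAt W p q)
    {q : Nat.Primes} (h : AuxOk W p q) :
    SB.LCond (plv q q.2) (RDW hΔ hirr hp2 O).rbar 0 (fun _ => True) := by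
  haveI := charP_res p O
  have hU : lev.isOpen (RDW hΔ hirr hp2 O).rbar.ker :=
    lev_isOpen_of_levS (RDW_open hΔ hirr hp2 hS)
  have hq1 : (((q : ℕ) : ℕ) : ResidueField O) = -1 := by
    have h1 : (((q : ℕ) + 1 : ℕ) : ResidueField O) = 0 :=
      (CharP.cast_eq_zero_iff (ResidueField O) p _).mpr h.neg
    rw [Nat.cast_add, Nat.cast_one] at h1
    exact eq_neg_of_add_eq_zero_left h1
  have hq1' : (((q : ℕ) : ℕ) : ZMod p) + 1 = 0 := by
    have h1 : (((q : ℕ) + 1 : ℕ) : ZMod p) = 0 := (CharP.cast_eq_zero_iff (ZMod p) p _).mpr h.neg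
    rwa [Nat.cast_add, Nat.cast_one] at h1
  refine Fermat.Agent.H06.laux hp.out hp2 hU q (fun h' => h.un.ne h'.symm)
    (fun τ hτ => RDW_unr hΔ hirr hp2 h.un.unr (plv_over _ _) hτ) hq1 ?_
  have h1 := h.un.tr _ (plv_over _ q.2) _ (frv_spec _ q.2)
  rw [hq1', zero_pow two_ne_zero] at h1
  intro h2
  apply h1
  rw [RD.trace_rbar, RDW_tbar, ringHom_padic] at h2
  rw [(ZMod.castHom (dvd_refl p) (ResidueField O)).injective (h2.trans (map_zero _).symm),
    zero_pow two_ne_zero]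

/-- **The base data for modularity lifting**, with auxiliary primes. -/
theorem exists_fInU (hGW : GWad p) (hk : Kill W p) (Ge : Geo p) (hNL : NLIn W p)
    {ζ : ResidueField O} (hζ : IsPrimitiveRoot ζ (p ^ 2 - 1)) (hpO : (p : O) ∈ maximalIdeal O)
    {S T U : Finset Nat.Primes} {pp : Nat.Primes} (hpp : (pp : ℕ) = p) (hpS : pp ∈ S)
    (hpT : pp ∉ T) (hTS : T ⊆ S) (hUS : U ⊆ S) (hTU : Disjoint T U)
    (hU : ∀ q ∈ U, AuxOk W p q) (hSunr : ∀ q : Nat.Primes, q ∉ S → UnrAt W p q)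
    (hram : ∀ q ∈ S, q ∉ T → q ∉ U → q ≠ pp → ¬ UnrAt W p q)
    {D₀ : ℕ} (hD₀ : D₀ ≠ 0) (hpD₀ : p ∣ D₀)
    (hΔD₀ : ∀ q : ℕ, q.Prime → (q : ℤ) ∣ W.Δ → q ∣ D₀) :
    ∃ I : FIn hΔ hirr hp2 O, I.S = S ∧ I.D₀ = D₀ ∧
      ∀ n, SelM (RDW hΔ hirr hp2 O) p pp S T I.r (fun j => ⟨(I.c n).q j, (I.c n).prime j⟩) := by
  haveI := charP_res p O
  have hTW : TWData p S (RDW hΔ hirr hp2 O).rbar (chiB hΔ hirr hp2 O) :=
    RDW_TWData hΔ hirr hp2 hSunr (hNL hΔ hirr hp2 O)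
  have hpU : pp ∉ U := fun h => (hU pp h).un.ne hpp
  obtain ⟨r, hr⟩ := exists_SelB_modes (D := RDW hΔ hirr hp2 O) hGW hp2 (U := U)
    (condU := fun _ _ => True) hpp hpS hpT hpU hTS hUS hTU hTW
    (fun q h1 h2 h2' h3 => exists_ram_plv hΔ hirr hp2 (hram q h1 h2 h2' h3))
    (RDW_isCyc hΔ hirr hp2) hpO
    (lev_isOpen_of_levS hTW.open_ker) (fun q hq => laux_RDW hΔ hirr hp2 hSunr (hU q hq))
  have hc : ∀ n : ℕ, ∃ c : TWCore p r, TWOk (O := O) hΔ hirr hp2 S D₀ n c ∧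
      SelM (RDW hΔ hirr hp2 O) p pp S T r (fun j => ⟨c.q j, c.prime j⟩) := by
    intro n
    obtain ⟨qv, h1, h2, h3⟩ := hr (n + 1) D₀.primeFactors
    obtain ⟨c, hcq, hce, hcu⟩ := exists_TWCore hΔ hirr hp2 (n := n + 1)
      (fun j => (qv j : ℕ)) (fun i j hij => h1 (Subtype.ext hij)) (fun j => (h2 j).2.2)
    have hq : ∀ j, (⟨c.q j, c.prime j⟩ : Nat.Primes) = qv j := fun j =>
      Subtype.ext (congrFun hcq j)
    refine ⟨c, ⟨fun j => (Nat.le_succ n).trans (hce j), fun j => ?_, fun j => ?_, fun j => ?_,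
      fun j => ?_⟩, ?_⟩
    · rw [hcq]; exact hcu j
    · rw [hcq]; exact (h2 j).2.2
    · rw [hcq]
      exact fun h => (h2 j).1 (Nat.mem_primeFactors.mpr ⟨(qv j).2, h, hD₀⟩)
    · rw [hq]; exact (h2 j).2.1
    · have : (fun j => (⟨c.q j, c.prime j⟩ : Nat.Primes)) = qv := funext hq
      rw [this]
      have h4 := h3 (S ∪ Finset.univ.image qv) (by congr!)
      refine ⟨fun hLF κ _ _ bad H hbar hun => ?_, fun κ _ _ bad H hbar hun => ?_,
        fun κ _ _ bad H hbar hun => ?_⟩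
      · exact (h4 κ bad H hbar (fun q h1 h2 _ h3 => hun q h1 h2 h3)
          (fun d hd q hq => trivial)).1 hLF
      · exact (h4 κ bad H hbar (fun q h1 h2 _ h3 => hun q h1 h2 h3)
          (fun d hd q hq => trivial)).2.1
      · exact (h4 κ bad H hbar (fun q h1 h2 _ h3 => hun q h1 h2 h3)
          (fun d hd q hq => trivial)).2.2
  choose c hc1 hc2 using hc
  exact ⟨⟨S, hSunr, D₀, hD₀, hpD₀, hΔD₀, ζ, hζ, hk, hTW, Ge, r, c, hc1⟩, rfl, rfl, hc2⟩

end

section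

variable {W : WeierstrassCurve ℤ} {p : ℕ} [hp : Fact p.Prime]

theorem mem_insS {s : ℕ} (hs : s.Prime) {q : Nat.Primes} :
    q ∈ (insert ⟨s, hs⟩ (bigS W p) : Finset Nat.Primes) ↔ (q : ℕ) = s ∨ q ∈ bigS W p := by
  refine Finset.mem_insert.trans ⟨?_, ?_⟩
  · rintro (h | h)
    · exact Or.inl (congrArg Subtype.val h)
    · exact Or.inr h
  · rintro (h | h)
    · exact Or.inl (Subtype.ext h)
    · exact Or.inr h

/-- **The base data attached to a semistable curve**, with one auxiliary prime. -/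
theorem exists_setupU (hΔ : W.Δ ≠ 0) (hss : W.IsSemistableModel) (hirr : W.ModRepIsIrreducible p)
    (hp2 : p ≠ 2) (hGW : GWad p) (G : Geo p) {s : ℕ} (hs0 : s.Prime) (hun : UnOk W p s)
    (hneg : p ∣ s + 1) (hsΔ : ¬ (s : ℤ) ∣ W.Δ) :
    ∃ (O : Type) (_ : CommRing O) (_ : IsDomain O) (_ : IsDiscreteValuationRing O)
      (_ : IsAdicComplete (maximalIdeal O) O) (_ : Finite (ResidueField O)) (_ : CharZero O)
      (_ : Algebra ℤ_[p] O) (_ : IsLocalHom (algebraMap ℤ_[p] O)) (K : Type) (_ : Field K)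
      (_ : CharZero K) (_ : IsAlgClosed K) (_ : Algebra O K) (_ : FaithfulSMul O K),
      (p : O) ∈ maximalIdeal O ∧ ∃ I : FIn hΔ hirr hp2 O,
        I.S = insert ⟨s, hs0⟩ (bigS W p) ∧
        I.D₀ = p * W.Δ.natAbs * s ∧ LFlat p (plv p hp.out) (RDW hΔ hirr hp2 O).rbar ∧
        ∀ n, SelM (RDW hΔ hirr hp2 O) p ⟨p, hp.out⟩ (insert ⟨s, hs0⟩ (bigS W p)) (unrT W p)
          I.r (fun j => ⟨(I.c n).q j, (I.c n).prime j⟩) := by
  classical
  have hp0 := hp.out
  have hpp : p ^ 2 - 1 ≠ 0 := by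
    have h1 : 2 ≤ p := hp0.two_le
    have h2 : 4 ≤ p ^ 2 := by nlinarith
    omega
  obtain ⟨O, i1, i2, i3, i4, i5, i6, i7, i8, i9, hinj, ω, hω⟩ := exists_coeff p _ hpp
  have hpO : (p : O) ∈ maximalIdeal O := p_mem_maxO O
  have hu : IsUnit ((p ^ 2 - 1 : ℕ) : O) := by
    by_contra hnu
    have h1 : ((p ^ 2 - 1 : ℕ) : O) ∈ maximalIdeal O := (mem_maximalIdeal _).mpr hnu
    have h2 : ((p ^ 2 : ℕ) : O) ∈ maximalIdeal O := by
      rw [Nat.cast_pow, pow_two]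
      exact Ideal.mul_mem_left _ _ hpO
    have h3 : (1 : O) = ((p ^ 2 : ℕ) : O) - ((p ^ 2 - 1 : ℕ) : O) := by
      rw [← Nat.cast_sub (Nat.sub_le _ _)]
      have : p ^ 2 - (p ^ 2 - 1) = 1 := by omega
      rw [this, Nat.cast_one]
    have h4 : (1 : O) ∈ maximalIdeal O := by
      rw [h3]; exact sub_mem h2 h1
    exact (Ideal.ne_top_iff_one _).mp (maximalIdeal.isMaximal O).ne_top h4
  have hζ := isPrimitiveRoot_residue hu hω
  let K := AlgebraicClosure (FractionRing O)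
  haveI hK : FaithfulSMul O K := (faithfulSMul_iff_algebraMap_injective _ _).mpr (by
    rw [IsScalarTower.algebraMap_eq O (FractionRing O) K]
    exact (algebraMap (FractionRing O) K).injective.comp (IsFractionRing.injective O _))
  haveI : CharZero K := charZero_of_injective_algebraMap (FaithfulSMul.algebraMap_injective O K)
  have hSunr : ∀ q : Nat.Primes, q ∉ (insert ⟨s, hs0⟩ (bigS W p) : Finset Nat.Primes) →
      UnrAt W p q := by
    intro q hq
    have hq' : ¬ ((q : ℕ) = s ∨ q ∈ bigS W p) := fun h => hq ((mem_insS hs0).mpr h)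
    rw [not_or, mem_bigS hΔ hp0, not_or] at hq'
    replace hq := hq'
    exact unrAt_of_good q.2 hq.2.2 fun h =>
      hq.2.1 ((Nat.prime_dvd_prime_iff_eq q.2 hp0).mp h)
  obtain ⟨I, h1, h2, h3⟩ := exists_fInU (O := O) hΔ hirr hp2 (U := {(⟨s, hs0⟩ : Nat.Primes)}) hGW
    (kill_of_Geo hΔ hirr G) G (nLIn_of_semistable hss) hζ hpO 
    (S := insert ⟨s, hs0⟩ (bigS W p))
    (T := unrT W p) (pp := ⟨p, hp0⟩) rfl
    ((mem_insS hs0).mpr (Or.inr ((mem_bigS hΔ hp0).mpr (Or.inl rfl))))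
    (fun h => ((mem_unrT hΔ hp0).mp h).2.1 rfl)
    ((Finset.filter_subset _ _).trans fun q hq => (mem_insS hs0).mpr (Or.inr hq))
    (Finset.singleton_subset_iff.mpr ((mem_insS hs0).mpr (Or.inl rfl)))
    (Finset.disjoint_singleton_right.mpr fun h => hsΔ ((mem_unrT hΔ hp0).mp h).1)
    (fun q hq => by rw [Finset.mem_singleton.mp hq]; exact ⟨hun, hneg⟩) hSunr
    (fun q hq hqT hqU hqp hun => by
      have hqp' : (q : ℕ) ≠ p := fun h => hqp (Subtype.ext h)
      rcases (mem_insS hs0).mp hq with h | h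
      · exact hqU (Finset.mem_singleton.mpr (Subtype.ext h))
      · exact hqT ((mem_unrT hΔ hp0).mpr
          ⟨((mem_bigS hΔ hp0).mp h).resolve_left hqp', hqp', hun⟩))
    (D₀ := p * W.Δ.natAbs * s)
    (mul_ne_zero (mul_ne_zero hp0.ne_zero (Int.natAbs_ne_zero.mpr hΔ)) hs0.ne_zero)
    ((dvd_mul_right _ _).mul_right _)
    (fun q _ h => ((Int.natCast_dvd.mp h).mul_left _).mul_right _)
  exact ⟨O, i1, i2, i3, i4, i5, i6, i7, i9, K, inferInstance, inferInstance, inferInstance,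
    inferInstance, hK, hpO, I, h1, h2,
    lflat_RDW hΔ hirr hp2 O hζ hSunr (plv_over p hp0), h3⟩

end

end Fermat.Agent.H14U
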