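import Mathlib
import Fermat.Agent.TFin.HMode
import Fermat.Agent.H14U.Setup
import Fermat.Agent.H26U.TowU

/-!
# The output of the towers in the mode `H`, with an auxiliary prime
-/

set_option autoImplicit false
set_option linter.unusedSectionVars false
set_option linter.style.haveILetI false

noncomputable section

namespace Fermat.Agent.H14U

open Fermat.Agent.TC Fermat.Agent.TW Fermat.Agent.CC Fermat.Agent.H25.GE Fermat.Agent.H25.TR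
open Fermat.Agent.Ell Fermat.Agent.H25 Fermat.Agent.H25.PR Fermat.Agent.H25.PT
open Fermat.Agent.H22 Fermat.Agent.H12.LL Fermat.Agent.H09.MH Fermat.Agent.H27.MH
open Fermat.Agent.TFin Fermat.Agent.LU
open Fermat.Agent.H12.LO (UnOk)
open Fermat.Agent.H25.St (UQ StT OrdD)
open IsLocalRing CongruenceSubgroup Matrix

variable {W : WeierstrassCurve ℤ} {p : ℕ} [hp : Fact p.Prime]

/-- **The output of the towers in the mode `H`**, with an auxiliary prime. -/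
theorem finOut_HU (hΔ : W.Δ ≠ 0) (hss : W.IsSemistableModel) (hp2 : p ≠ 2)
    (hirr : W.ModRepIsIrreducible p) (hGW : SB.GWad p) (G : Geo p) {N : ℕ}
    (hN : MinLevelU W p N) (hpΔ : (p : ℤ) ∣ W.Δ) (hnS : ¬ ModeS W p)
    {r : ℕ} (hr : r.Prime) (hr3 : r % 3 = 2) (hrΔ : ¬ (r : ℤ) ∣ W.Δ) (hun : UnOk W p r)
    (hneg : p ∣ r + 1) : FinOut W := by
  classical
  have hp0 := hp.out
  obtain ⟨O, i1, i2, i3, i4, i5, i6, i7, i8, K, i9, i10, i11, i12, i13, hpO, I, hIS, hID, -,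
    hSel⟩ := exists_setupU hΔ hss hirr hp2 hGW G hr hun hneg hrΔ
  haveI := charP_res p O
  obtain ⟨Tw⟩ : Nonempty (TowU I K N r) := by
    first
    | exact exists_towU I K hpO hr hr3 hrΔ hun.ne hIS hID hN
    | exact exists_towU I K hpO (rr := ⟨r, hr⟩) hr3 hrΔ hun.ne hIS hID hN
  have hSg : ∀ q : Nat.Primes, q ∉ I.S → (q : ℕ) ≠ p ∧ W.IsGoodPrimeFor q := by
    intro q hq
    rw [hIS] at hq
    have hq' : ¬ ((q : ℕ) = r ∨ q ∈ bigS W p) := fun h => hq ((mem_insS hr).mpr h)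
    rw [not_or, mem_bigS hΔ hp.out, not_or] at hq'
    exact hq'.2
  have hpN : ¬ p ∣ N := fun h => hnS (hN.mode.mp h)
  have hpX : ∀ j, ¬ p ∣ (Tw.X j).N := fun j h => hpN ((Tw.pN j).mp h)
  have hSD : ∀ q : Nat.Primes, q ∈ (insert ⟨r, hr⟩ (bigS W p) : Finset Nat.Primes) →
      (q : ℕ) ∣ I.D₀ := by
    intro q hq
    rw [hID]
    rcases (mem_insS hr).mp hq with h | h
    · rw [h]; exact dvd_mul_left _ _
    · rcases (mem_bigS hΔ hp0).mp h with h | h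
      · rw [h]; exact (dvd_mul_right _ _).mul_right _
      · exact ((Int.natCast_dvd.mp h).mul_left _).mul_right _
  have hnsq : ∀ {N : ℕ}, Squarefree N → ∀ q : ℕ, q.Prime → ¬ q * q ∣ N :=
    fun hN q hq h => hq.not_isUnit (hN q h)
  -- the level divisible by `p`
  have hL0 : (Tw.X (Fin.last Tw.m)).N ≠ 0 := (Tw.sq _).ne_zero
  have hLsq : Squarefree ((Tw.X (Fin.last Tw.m)).N * p) := by
    rw [Nat.squarefree_mul_iff]
    exact ⟨((Nat.Prime.coprime_iff_not_dvd hp0).mpr (hpX _)).symm, Tw.sq _, hp0.prime.squarefree⟩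
  have hLd : ∀ q : Nat.Primes, (q : ℕ) ∣ (Tw.X (Fin.last Tw.m)).N * p →
      q ∈ (insert ⟨r, hr⟩ (bigS W p) : Finset Nat.Primes) := by
    intro q hq
    rw [mem_insS hr, mem_bigS hΔ hp0]
    rcases (Nat.Prime.dvd_mul q.2).mp hq with h | h
    · rcases Tw.disc _ q q.2 h with h | h
      · exact Or.inr (Or.inr h)
      · exact Or.inl h
    · exact Or.inr (Or.inl ((Nat.prime_dvd_prime_iff_eq q.2 hp0).mp h))
  obtain ⟨X', hX'⟩ : ∃ X' : CmpT (I.F K), X'.N = (Tw.X (Fin.last Tw.m)).N * p := by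
    refine I.exists_cmpT K hpO hLsq.ne_zero ?_ ?_ ?_ ?_
    · exact Fermat.Agent.H24R.ell_of_dvd hr hr3
        ((((dvd_mul_left _ _).trans (Tw.dvd _))).mul_right _)
    · exact squarefree_dvd hLsq fun q hq h => hSD ⟨q, hq⟩ (hLd ⟨q, hq⟩ h)
    · exact H18R.isResiduallyModular_mono hΔ hirr (Tw.rm _) (dvd_mul_right _ _) hLsq.ne_zero
    · intro q hq
      rw [hIS]
      rcases (Nat.Prime.dvd_mul q.2).mp hq with h | h
      · exact hLd q h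
      · exact hLd q (h.mul_left _)
  have hX'sq : Squarefree X'.N := by rw [hX']; exact hLsq
  have hppe : ((⟨p, hp0⟩ : Nat.Primes) : ℕ) = p := rfl
  have hstepp : RStep (Tw.X (Fin.last Tw.m)) X' (⟨p, hp0⟩ : Nat.Primes) :=
    I.rstep hX' (hpX _)
  have hA : (plv ((⟨p, hp0⟩ : Nat.Primes) : ℕ) (⟨p, hp0⟩ : Nat.Primes).2).LiesOverPrime p :=
    plv_over p hp0
  -- the data at `p`
  obtain ⟨psi, σ₀, Q, Q', ho, hstW, hB, hσ₀, hu⟩ :=
    exists_pdata (O := O) hΔ hirr hp2 hpΔ (hss p hp0 hpΔ) hppe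
  obtain ⟨u, hu'⟩ := hu
  obtain ⟨Φ, hΦ⟩ : ∃ Φ, (plv ((⟨p, hp0⟩ : Nat.Primes) : ℕ)
      (⟨p, hp0⟩ : Nat.Primes).2).IsFrobeniusAt Φ p := ⟨_, frv_spec p hp0⟩
  obtain ⟨ϖ, hϖ⟩ := (IsPrincipalIdealRing.principal (maximalIdeal O)).principal
  have hϖ' : maximalIdeal O = Ideal.span {ϖ} := hϖ
  have hϖ0 : ϖ ≠ 0 := by
    rintro rfl
    rw [Ideal.span_singleton_eq_bot.mpr rfl] at hϖ'
    exact IsDiscreteValuationRing.not_isField O
      ((IsLocalRing.isField_iff_maximalIdeal_eq).mpr hϖ')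
  obtain ⟨hy, tp, e, hTp, hye⟩ := exists_tpH (I.EW K hSg) Tw.X X' hϖ' hϖ0 hppe hstepp ho
    hΦ.mem_decompositionSubgroup hσ₀ hu'
    (fun n => uRel_of hp2 (Tw.X (Fin.last Tw.m)) (hpX _) I.hpD₀ hA ho hΦ hσ₀ hu' n)
  -- signs
  have hT : FrD (I.F K).D p Tw.tv :=
    RDW_FrD hΔ hirr hp2 Tw.tv (fun t => (Tw.tv_ne t).symm) Tw.tv_unr
  have hε : ∀ t, ∃ ε : O, ε ^ 2 = 1 ∧
      tW W p O (frv (Tw.tv t) (Tw.tv t).2) = ε * (((Tw.tv t : ℕ) : O) + 1) := by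
    intro t
    obtain ⟨ε, h1, h2⟩ := tW_frob_mult (O := O) hΔ hirr (Tw.tv t).2 (Tw.tv_ne t) (Tw.tv_dvd t)
      (hss _ (Tw.tv t).2 (Tw.tv_dvd t)) (plv_over _ (Tw.tv t).2) (frv_spec _ (Tw.tv t).2)
    refine ⟨ε, ?_, h2⟩
    rcases h1 with rfl | rfl
    · ring
    · ring
  choose ε hε1 hε2 using hε
  have htr : ∀ t, ((RDW hΔ hirr hp2 O).rbar (frv (Tw.tv t) (Tw.tv t).2)).trace =
      (RDW hΔ hirr hp2 O).res (ε t * (((Tw.tv t : ℕ) : O) + 1)) := by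
    intro t
    rw [RD.trace_rbar, RDW_tbar, ← hε2, RDW_res]
    rfl
  have hD₀ : ∀ t, (Tw.tv t : ℕ) ∣ I.D₀ := fun t => I.hΔD₀ _ (Tw.tv t).2 (Tw.tv_dvd t)
  have hinj : Function.Injective Tw.tv := fun a b h => Tw.e.injective (Subtype.ext h)
  have htv : ∀ q, q ∈ unrT W p ↔ ∃ t, Tw.tv t = q :=
    fun q => ⟨fun h => ⟨Tw.e.symm ⟨q, h⟩, congrArg Subtype.val (Tw.e.apply_symm_apply ⟨q, h⟩)⟩,
      fun ⟨t, ht⟩ => ht ▸ Tw.tv_mem t⟩
  have hS : ∀ n, (I.F K).S n = (insert ⟨r, hr⟩ (bigS W p) : Finset Nat.Primes) ∪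
      Finset.univ.image (fun j => (⟨(I.c n).q j, (I.c n).prime j⟩ : Nat.Primes)) := by
    intro n
    rw [← hIS]
    rfl
  obtain ⟨y, hy'⟩ := liftH (I.EW K hSg) Tw.X X' hϖ' hϖ0 hT ε hε1 htr (fun n j => (I.hc n).le j)
    0 (fun t h => I.rstep (Tw.step t).1 (Tw.step t).2) (fun t h => rin _ (Tw.tv_ne t)) hD₀
    (fun t => hnsq (Tw.sq _) _ (Tw.tv t).2)
    (fun ℓ hℓ h => by
      rcases (Nat.Prime.dvd_mul hℓ).mp (Nat.mem_primeFactors.mp h).2.1 with h | h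
      · exact h
      · rw [(Nat.prime_dvd_prime_iff_eq hℓ hp.out).mp h]; exact I.hpD₀)
    (fun n t ht x => absurd ht (not_lt_of_ge (Fin.zero_le _)))
    hppe hstepp tp (yH (I.EW K hSg) Tw.X X' u ((psi Φ : ℤ) : O) Φ σ₀) e hy hTp hye
    (hSelI_of (I.EW K hSg) Tw.X X' hppe I.hpD₀ hS hSel hinj htv hpX
      (fun q hq hqT hqp => ⟨hSD q hq, fun j => hnsq (Tw.sq j) q q.2⟩) hB hΦ hσ₀ ⟨u, hu'⟩
      (u := ((u⁻¹ : Oˣ) : O)) (l := ((psi Φ : ℤ) : O)) (u⁻¹).isUnit _ fun n => rfl)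
    () (hSels_of' (I.EW K hSg) Tw.X X' hϖ' hϖ0 hstepp hp2 hppe I.hpD₀ hS hSel hinj htv ho
      (hnsq hX'sq p hp0) () (fun n x => hstW)
      (fun q hq hqT hqp => ⟨hSD q hq, hnsq hX'sq q q.2⟩)
      (fun n q hq hqT hqp x τ hτ => by
        have h := tW_inertia (O := O) hΔ hirr q.2 (fun h => hqp (Subtype.ext h))
          (hss _ q.2) (plv_over _ q.2) hτ
        exact h))
    (AlgHom.id O O) (tW W p O)
    (fun g => ((I.EW K hSg).H₀ ()).ev_C (I.F K).hbar₀ g ())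
    (fun t => tW_inertia hΔ hirr (Tw.tv t).2 (Tw.tv_ne t) (hss _ (Tw.tv t).2)
      (plv_over _ (Tw.tv t).2) (tmv_spec p _ (Tw.tv t) (Tw.tv t).2).2.1) hε2
  exact finOut_of_point I X' hX'sq y hy'

end Fermat.Agent.H14U
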