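import Mathlib
import Fermat.Agent.H18O.Lift3
import Fermat.Agent.H26U.FinU2

/-!
# Modularity lifting without condition at `2`: final form
-/

set_option autoImplicit false
set_option linter.unusedSectionVars false

noncomputable section

namespace Fermat.Agent.H14U

open Fermat.Agent.TW Fermat.Agent.CC Fermat.Agent.Ell Fermat.Agent.H12.LL Fermat.Agent.TFin
open Fermat.Agent.H25 Fermat.Agent.H25.PT Fermat.Agent.H25.SB
open IsLocalRing CongruenceSubgroup WeierstrassCurve

/-- the towers in the modes `F` and `S`, for `p = 3` -/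
theorem towFS_three [Fact (Nat.Prime 3)] : H18O.TowFS 3 := fun _ hΔ hss hirr _ hN h _ h1 h2 h3
    h4 h5 =>
  LU.finOut_FSU hΔ hss (by norm_num) hirr (gwad (by norm_num) (CFT.EC.gw (by norm_num)))
    (geo_all Nat.prime_three) hN h h1 h2 h3 h4 h5

/-- **Modularity lifting at `3`**, from Mazur's principle at `2`. -/
theorem liftU_three (hm : H18O.Mz2All 3) : H18O.LiftU 3 :=
  haveI : Fact (Nat.Prime 3) := ⟨Nat.prime_three⟩
  H18O.liftU_three towFS_three hm

/-- **Modularity lifting at `5`**, from Mazur's principle at `2`. -/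
theorem liftU_five (hm : H18O.Mz2All 5) : H18O.LiftU 5 := H18O.liftU_five hm

/-- the form used in phase two -/
theorem liftOdd_three (hm : H18O.Mz2All 3) : P2.LiftOdd 3 := (liftU_three hm).liftOdd

/-- the form used in phase two -/
theorem liftOdd_five (hm : H18O.Mz2All 5) : P2.LiftOdd 5 := (liftU_five hm).liftOdd

/-- the form used in phase two -/
theorem liftThreeTwo (hm : H18O.Mz2All 3) : P2.LiftThreeTwo := (liftU_three hm).liftThreeTwo

end Fermat.Agent.H14U
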