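import Mathlib
import Fermat.Agent.H14U.Setup
import Fermat.Agent.H26U.FinU
import Fermat.Agent.H13.LL.NewP

/-!
# The output of the towers in the modes `F` and `S`, with an auxiliary prime
-/

set_option autoImplicit false
set_option linter.unusedSectionVars false
set_option linter.style.haveILetI false

noncomputable section

namespace Fermat.Agent.H14U

open Fermat.Agent.TC Fermat.Agent.TW Fermat.Agent.CC Fermat.Agent.H25.GE Fermat.Agent.H25.TR
open Fermat.Agent.Ell Fermat.Agent.H25 Fermat.Agent.H25.PR Fermat.Agent.H25.PT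
open Fermat.Agent.H22 Fermat.Agent.H12.LL
open Fermat.Agent.TFin Fermat.Agent.LU
open Fermat.Agent.H12.LO (UnOk)
open IsLocalRing CongruenceSubgroup Matrix

variable {W : WeierstrassCurve ℤ} {p : ℕ} [hp : Fact p.Prime]

/-- **The output of the towers in the modes `F` and `S`**, with an auxiliary prime. -/
theorem finOut_FSU (hΔ : W.Δ ≠ 0) (hss : W.IsSemistableModel) (hp2 : p ≠ 2)
    (hirr : W.ModRepIsIrreducible p) (hGW : SB.GWad p) (G : Geo p) {N : ℕ}
    (hN : MinLevelU W p N) (hmode : ((p : ℤ) ∣ W.Δ ∧ ModeS W p) ∨ ¬ (p : ℤ) ∣ W.Δ)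
    {r : ℕ} (hr : r.Prime) (hr3 : r % 3 = 2) (hrΔ : ¬ (r : ℤ) ∣ W.Δ) (hun : UnOk W p r)
    (hneg : p ∣ r + 1) : FinOut W := by
  classical
  obtain ⟨O, i1, i2, i3, i4, i5, i6, i7, i8, K, i9, i10, i11, i12, i13, hpO, I, hIS, hID, -,
    hSel⟩ := exists_setupU hΔ hss hirr hp2 hGW G hr hun hneg hrΔ
  rcases hmode with ⟨hpΔ, hS⟩ | hpΔ
  · exact finOut_SU (r := ⟨r, hr⟩) K hss hpO hr3 hrΔ hun.ne hIS hID hSel hN (hN.mode.mpr hS) hpΔ
      (newP W p hp.out)
  · exact finOut_FU (r := ⟨r, hr⟩) K hss hpO hr3 hrΔ hun.ne hIS hID hSel hN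
      (fun h => hpΔ (hN.dvd_disc p hp.out h)) hpΔ
      (newP W p hp.out)

end Fermat.Agent.H14U
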